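import Mathlib
import Fermat.Agent.H82.CharPoly
import Fermat.Agent.H20.DS.Interfaces2

/-!
# P-DS, row 532 (B1-CHAR): relative characteristic polynomial for `Γ₁(N) ⊆ Γ₀(N)`

A cusp form on `Γ₁(N)` is a root of a monic polynomial whose lower coefficients are cusp forms
on `Γ₀(N)`.  Port of `Fermat.Agent.H82.exists_charpoly` (whose general section is generic in the
pair of groups).
-/

set_option autoImplicit false
set_option linter.style.haveILetI false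

open UpperHalfPlane ModularForm CongruenceSubgroup SlashInvariantForm
open scoped MatrixGroups ModularForm Topology Filter Manifold

namespace Fermat.Agent.H47.DS

noncomputable section

open Fermat.Agent.H82

theorem relCharpoly : Fermat.Agent.H20.DS.RelCharpolyStatement := by
  intro N _ k f
  let 𝒢 : Subgroup (GL (Fin 2) ℝ) := (Gamma1 N : Subgroup (GL (Fin 2) ℝ))
  let ℋ : Subgroup (GL (Fin 2) ℝ) := (Gamma0 N : Subgroup (GL (Fin 2) ℝ))
  have hle : ℋ ≤ 𝒮ℒ := by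
    rintro _ ⟨γ, -, rfl⟩
    exact ⟨γ, rfl⟩
  haveI : 𝒢.IsFiniteRelIndex 𝒮ℒ := inferInstance
  haveI : 𝒢.IsFiniteRelIndex ℋ := Subgroup.isFiniteRelIndex_of_le_right (H := 𝒢) hle
  refine ⟨Nat.card (ℋ ⧸ 𝒢.subgroupOf ℋ),
    fun i => (-1 : ℂ) ^ (Nat.card (ℋ ⧸ 𝒢.subgroupOf ℋ) - i) •
      esymmFun (ℋ := ℋ) f (Nat.card (ℋ ⧸ 𝒢.subgroupOf ℋ) - i), Nat.card_pos, ?_, ?_⟩
  · intro i hi
    have hn : 0 < Nat.card (ℋ ⧸ 𝒢.subgroupOf ℋ) - i := Nat.sub_pos_of_lt hi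
    have hw : k * ((Nat.card (ℋ ⧸ 𝒢.subgroupOf ℋ) - i : ℕ) : ℤ) =
        k * ((Nat.card (ℋ ⧸ 𝒢.subgroupOf ℋ) : ℤ) - (i : ℤ)) := by
      rw [Nat.cast_sub hi.le]
    have key : ∀ (w w' : ℤ) (_ : w = w') (g : CuspForm ℋ w), ∃ g' : CuspForm ℋ w', ⇑g' = ⇑g := by
      rintro w w' rfl g
      exact ⟨g, rfl⟩
    obtain ⟨g', hg'⟩ := key _ _ hw
      ((-1 : ℂ) ^ (Nat.card (ℋ ⧸ 𝒢.subgroupOf ℋ) - i) • esymmCuspForm ℋ f hn)
    refine ⟨g', ?_⟩
    rw [hg']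
    rfl
  · funext τ
    have := esymmFun_root ℋ f τ
    simp only [Pi.add_apply, Pi.pow_apply, Finset.sum_apply, Pi.mul_apply, Pi.smul_apply,
      smul_eq_mul, Pi.zero_apply]
    exact this

end

end Fermat.Agent.H47.DS
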